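import Fermat.Agent.S14.H894.TotRam

/-!
# S14 / H894 : the valuation of `ℚ̄` over `p` restricted to `ℚ` and to `ℚ(ζ_p)`

For a valuation subring `A` of `ℚ̄` over the prime `p`, a primitive `p`-th root of unity `ζ`
and `π = ζ - 1`:
* `exists_zpow_valuation_rat`: `v(c) ∈ v(p)^ℤ` for `c ∈ ℚˣ`;
* `valuation_natCast_eq_pow`: `v(p) = v(π)^(p-1)`;
* `exists_zpow_valuation_cyclo`: `v(x) ∈ v(π)^ℤ` for `x ∈ ℚ(ζ)ˣ`;
* `exists_int_valuation_sub_lt_one`: every `x ∈ ℚ(ζ) ∩ A` is congruent to a rational integer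
  modulo the maximal ideal of `A`.
-/

set_option autoImplicit false
set_option linter.style.haveILetI false

open scoped Pointwise

namespace Fermat.Agent.S14.H894

open Polynomial Fermat.Agent.S54

local notation "Qb" => AlgebraicClosure ℚ
local notation "GQ" => (AlgebraicClosure ℚ ≃ₐ[ℚ] AlgebraicClosure ℚ)

section rat

variable (A : ValuationSubring Qb) (p : ℕ) (hp : p.Prime) (hA : A.LiesOverPrime p)

include hA in
theorem valuation_natCast_prime_lt_one : A.valuation (p : Qb) < 1 :=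
  (ValuationSubring.mem_nonunits_iff (A := A)).mp hA

include hp in
theorem natCast_prime_ne_zero : (p : Qb) ≠ 0 := by
  exact_mod_cast hp.ne_zero

include hp in
theorem valuation_natCast_prime_ne_zero : A.valuation (p : Qb) ≠ 0 :=
  (Valuation.ne_zero_iff _).mpr (natCast_prime_ne_zero p hp)

theorem valuation_intCast_le_one (a : ℤ) : A.valuation (a : Qb) ≤ 1 :=
  (A.valuation_le_one_iff _).mpr (intCast_mem A a)

include hp hA in
/-- Integers prime to `p` are units of `A`. -/
theorem valuation_intCast_eq_one (a : ℤ) (ha : ¬ (p : ℤ) ∣ a) : A.valuation (a : Qb) = 1 := by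
  refine le_antisymm (valuation_intCast_le_one A a) ?_
  by_contra hlt
  rw [not_le] at hlt
  exact ha (dvd_of_intCast_mem_nonunits A p hp hA a
    ((ValuationSubring.mem_nonunits_iff (A := A)).mpr hlt))

include hp hA in
theorem exists_pow_valuation_nat (n : ℕ) (hn : n ≠ 0) :
    ∃ e : ℕ, A.valuation (n : Qb) = A.valuation (p : Qb) ^ e := by
  obtain ⟨e, n', hn', rfl⟩ := Nat.exists_eq_pow_mul_and_not_dvd hn p hp.ne_one
  refine ⟨e, ?_⟩
  have h1 : A.valuation ((n' : ℤ) : Qb) = 1 :=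
    valuation_intCast_eq_one A p hp hA n' (by exact_mod_cast hn')
  push_cast
  rw [map_mul, map_pow]
  have h2 : A.valuation (n' : Qb) = 1 := by exact_mod_cast h1
  rw [h2, mul_one]

include hp hA in
/-- The value group of `ℚ` is generated by the valuation of `p`. -/
theorem exists_zpow_valuation_rat (c : ℚ) (hc : c ≠ 0) :
    ∃ n : ℤ, A.valuation (c : Qb) = A.valuation (p : Qb) ^ n := by
  have hnum : c.num.natAbs ≠ 0 := by
    rw [Int.natAbs_ne_zero]; exact Rat.num_ne_zero.mpr hc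
  obtain ⟨e₁, h₁⟩ := exists_pow_valuation_nat A p hp hA c.num.natAbs hnum
  obtain ⟨e₂, h₂⟩ := exists_pow_valuation_nat A p hp hA c.den c.den_ne_zero
  refine ⟨(e₁ : ℤ) - e₂, ?_⟩
  have hv0 := valuation_natCast_prime_ne_zero A p hp
  have h3 : A.valuation ((c.num : ℤ) : Qb) = A.valuation (p : Qb) ^ e₁ := by
    rw [← h₁]
    rcases Int.natAbs_eq c.num with h | h
    · conv_lhs => rw [h]
      simp
    · conv_lhs => rw [h]
      simp
  have h4 : (c : Qb) = (c.num : Qb) / (c.den : Qb) := by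
    rw [Rat.cast_def]
  rw [h4, map_div₀, h3, h₂, zpow_sub₀ hv0, zpow_natCast, zpow_natCast]

include hA in
theorem valuation_intCast_lt_one_of_dvd (a : ℤ) (ha : (p : ℤ) ∣ a) :
    A.valuation (a : Qb) < 1 := by
  obtain ⟨t, rfl⟩ := ha
  push_cast
  rw [map_mul]
  have h1 := valuation_natCast_prime_lt_one A p hA
  have h2 := valuation_intCast_le_one A t
  exact lt_of_le_of_lt (mul_le_of_le_one_right zero_le h2) h1

include hp hA in
/-- A rational number which is integral at `A` is congruent to an integer modulo the maximal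
ideal. -/
theorem exists_int_valuation_rat_sub_lt_one (q : ℚ) (hq : A.valuation (q : Qb) ≤ 1) :
    ∃ m : ℤ, A.valuation ((q : Qb) - (m : Qb)) < 1 := by
  haveI : Fact p.Prime := ⟨hp⟩
  have hden : ¬ (p : ℤ) ∣ (q.den : ℤ) := by
    intro hdvd
    have hnum : ¬ (p : ℤ) ∣ q.num := by
      intro hdvd'
      have h1 : p ∣ q.num.natAbs := Int.natCast_dvd.mp hdvd'
      have h2 : p ∣ q.den := Int.natCast_dvd_natCast.mp hdvd
      have h3 : p ∣ 1 := by
        have := Nat.dvd_gcd h1 h2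
        rwa [Nat.Coprime.gcd_eq_one q.reduced] at this
      exact hp.one_lt.ne' (Nat.dvd_one.mp h3)
    have h1 := valuation_intCast_eq_one A p hp hA q.num hnum
    have h2 := valuation_intCast_lt_one_of_dvd A p hA (q.den : ℤ) hdvd
    have h4 : (q : Qb) = ((q.num : ℤ) : Qb) / (((q.den : ℕ) : ℤ) : Qb) := by
      rw [Rat.cast_def]; push_cast; rfl
    rw [h4, map_div₀, h1] at hq
    have hd0 : A.valuation (((q.den : ℕ) : ℤ) : Qb) ≠ 0 := by
      rw [Valuation.ne_zero_iff]
      exact_mod_cast q.den_ne_zero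
    rw [div_le_iff₀ (zero_lt_iff.mpr hd0), one_mul] at hq
    exact absurd hq (not_le.mpr h2)
  have hden' : ((q.den : ℕ) : ZMod p) ≠ 0 := by
    have : ((q.den : ℤ) : ZMod p) ≠ 0 := by
      rwa [Ne, ZMod.intCast_zmod_eq_zero_iff_dvd]
    exact_mod_cast this
  obtain ⟨m, hm⟩ := ZMod.intCast_surjective ((q.num : ZMod p) * ((q.den : ℕ) : ZMod p)⁻¹)
  refine ⟨m, ?_⟩
  have hdvd : (p : ℤ) ∣ q.num - m * q.den := by
    rw [← ZMod.intCast_zmod_eq_zero_iff_dvd]
    push_cast
    rw [hm, mul_assoc, inv_mul_cancel₀ hden', mul_one, sub_self]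
  have h1 := valuation_intCast_lt_one_of_dvd A p hA _ hdvd
  have h2 := valuation_intCast_eq_one A p hp hA (q.den : ℤ) hden
  have hd0 : ((q.den : ℕ) : Qb) ≠ 0 := by exact_mod_cast q.den_ne_zero
  have h4 : (q : Qb) - (m : Qb) = ((q.num - m * q.den : ℤ) : Qb) / (((q.den : ℕ) : ℤ) : Qb) := by
    rw [Rat.cast_def]
    push_cast
    field_simp
  rw [h4, map_div₀, h2, div_one]
  exact h1

end rat

section cyclo

variable (A : ValuationSubring Qb) (p : ℕ) (hp : p.Prime) (hA : A.LiesOverPrime p)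
  (ζ : Qb) (hζ : IsPrimitiveRoot ζ p)

theorem valuation_le_one_of_pow_eq_one {μ : Qb} {n : ℕ} (hn : n ≠ 0) (hμ : μ ^ n = 1) :
    A.valuation μ ≤ 1 := by
  have : A.valuation μ ^ n = 1 := by rw [← map_pow, hμ, map_one]
  exact ((pow_eq_one_iff_left hn).mp this).le

theorem valuation_pow_sub_one_le {μ : Qb} {n : ℕ} (hn : n ≠ 0) (hμ : μ ^ n = 1) (k : ℕ) :
    A.valuation (μ ^ k - 1) ≤ A.valuation (μ - 1) := by
  rw [← geom_sum_mul μ k, map_mul]
  have h1 : A.valuation (∑ i ∈ Finset.range k, μ ^ i) ≤ 1 := by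
    refine Valuation.map_sum_le _ fun i _ => ?_
    rw [map_pow]
    exact pow_le_one₀ zero_le (valuation_le_one_of_pow_eq_one A hn hμ)
  exact mul_le_of_le_one_left zero_le h1

include hp hζ in
theorem valuation_sub_one_eq_of_mem_primitiveRoots {μ : Qb} (hμ : μ ∈ primitiveRoots p Qb) :
    A.valuation (μ - 1) = A.valuation (ζ - 1) := by
  haveI : NeZero p := ⟨hp.ne_zero⟩
  have hμ' : IsPrimitiveRoot μ p := (mem_primitiveRoots hp.pos).mp hμ
  obtain ⟨i, -, hi⟩ := hζ.eq_pow_of_pow_eq_one hμ'.pow_eq_one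
  obtain ⟨j, -, hj⟩ := hμ'.eq_pow_of_pow_eq_one hζ.pow_eq_one
  refine le_antisymm ?_ ?_
  · rw [← hi]
    exact valuation_pow_sub_one_le A hp.ne_zero hζ.pow_eq_one i
  · rw [← hj]
    exact valuation_pow_sub_one_le A hp.ne_zero hμ'.pow_eq_one j

include hp hζ in
/-- `v(p) = v(ζ - 1)^(p-1)`. -/
theorem valuation_natCast_eq_pow :
    A.valuation (p : Qb) = A.valuation (ζ - 1) ^ (p - 1) := by
  haveI : Fact p.Prime := ⟨hp⟩
  have h1 : (p : Qb) = ∏ μ ∈ primitiveRoots p Qb, (1 - μ) := by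
    have := eval_one_cyclotomic_prime (R := Qb) (p := p)
    rw [cyclotomic_eq_prod_X_sub_primitiveRoots hζ, eval_prod] at this
    rw [← this]
    refine Finset.prod_congr rfl fun μ _ => ?_
    simp
  rw [h1, map_prod]
  have h2 : ∀ μ ∈ primitiveRoots p Qb, A.valuation (1 - μ) = A.valuation (ζ - 1) := by
    intro μ hμ
    rw [← valuation_sub_one_eq_of_mem_primitiveRoots A p hp ζ hζ hμ, Valuation.map_sub_swap]
  rw [Finset.prod_congr rfl h2, Finset.prod_const, hζ.card_primitiveRoots,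
    Nat.totient_prime hp]

include hp hA hζ in
theorem valuation_zeta_sub_one_lt_one : A.valuation (ζ - 1) < 1 := by
  by_contra h
  rw [not_lt] at h
  have h1 := valuation_natCast_prime_lt_one A p hA
  rw [valuation_natCast_eq_pow A p hp ζ hζ] at h1
  exact absurd (one_le_pow₀ h) (not_le.mpr h1)

include hp hζ in
theorem valuation_zeta_sub_one_ne_zero : A.valuation (ζ - 1) ≠ 0 := by
  rw [Valuation.ne_zero_iff, sub_ne_zero]
  exact hζ.ne_one hp.one_lt

end cyclo

section terms

variable (A : ValuationSubring Qb) (K : IntermediateField ℚ Qb) (γ : Qb) (n : ℕ)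

/-- In an integral `K`-linear combination of powers of `γ`, every term is integral and the
terms of positive degree lie in the maximal ideal. -/
theorem terms_of_mem
    (hindep : ∀ k : ℕ, 0 < k → k < n → ∀ c ∈ K, A.valuation γ ^ k ≠ A.valuation c)
    (c : ℕ → Qb) (hc : ∀ i, c i ∈ K)
    (hy : A.valuation (∑ i ∈ Finset.range n, c i * γ ^ i) ≤ 1) :
    (∀ i ∈ Finset.range n, A.valuation (c i * γ ^ i) ≤ 1) ∧
      ∀ i ∈ Finset.range n, 0 < i → A.valuation (c i * γ ^ i) < 1 := by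
  have hdist := distinct_terms A K γ n hindep c hc γ rfl
  have hle : ∀ i ∈ Finset.range n, A.valuation (c i * γ ^ i) ≤ 1 :=
    (valuation_sum_le_one_iff _ _ _ hdist).mp hy
  refine ⟨hle, ?_⟩
  intro i hi hi0
  refine lt_of_le_of_ne (hle i hi) ?_
  intro h1
  by_cases hci : c i = 0
  · rw [hci, zero_mul, map_zero] at h1; exact zero_ne_one h1
  · refine hindep i hi0 (Finset.mem_range.mp hi) (c i)⁻¹ (K.inv_mem (hc i)) ?_
    rw [map_inv₀]
    refine eq_inv_of_mul_eq_one_left ?_
    rw [mul_comm, ← map_pow, ← map_mul]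
    exact h1

end terms

section cycloField

variable (A : ValuationSubring Qb) (p : ℕ) (hp : p.Prime) (hA : A.LiesOverPrime p)
  (ζ : Qb) (hζ : IsPrimitiveRoot ζ p)

/-- The monic polynomial of degree `p - 1` over `ℚ` killing `ζ - 1`. -/
noncomputable def cycloShift : (⊥ : IntermediateField ℚ Qb)[X] :=
  (cyclotomic p (⊥ : IntermediateField ℚ Qb)).comp (X + C 1)

theorem cycloShift_monic : (cycloShift p).Monic :=
  (cyclotomic.monic p _).comp_X_add_C 1

include hp in
theorem cycloShift_natDegree : (cycloShift p).natDegree = p - 1 := by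
  unfold cycloShift
  rw [natDegree_comp, natDegree_X_add_C, mul_one, natDegree_cyclotomic, Nat.totient_prime hp]

include hp hζ in
theorem cycloShift_aeval : aeval (ζ - 1) (cycloShift p) = 0 := by
  unfold cycloShift
  rw [aeval_comp]
  simp only [map_add, aeval_X, map_one, sub_add_cancel]
  rw [aeval_def, ← eval_map, map_cyclotomic]
  exact hζ.isRoot_cyclotomic hp.pos

theorem mem_adjoinField_bot_of_mem (x : Qb) (hx : x ∈ IntermediateField.adjoin ℚ {ζ}) :
    x ∈ adjoinField ⊥ (ζ - 1) := by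
  have hle : IntermediateField.adjoin ℚ {ζ} ≤ adjoinField ⊥ (ζ - 1) := by
    rw [IntermediateField.adjoin_le_iff, Set.singleton_subset_iff]
    have h1 : ζ - 1 ∈ adjoinField ⊥ (ζ - 1) :=
      IntermediateField.subset_adjoin ℚ _ (Set.mem_union_right _ rfl)
    have h2 : (ζ - 1) + 1 ∈ adjoinField ⊥ (ζ - 1) :=
      (adjoinField ⊥ (ζ - 1)).add_mem h1 (adjoinField ⊥ (ζ - 1)).one_mem
    simpa using h2
  exact hle hx

include hp hA hζ in
theorem cyclo_indep : ∀ k : ℕ, 0 < k → k < (cycloShift p).natDegree →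
    ∀ c ∈ (⊥ : IntermediateField ℚ Qb), A.valuation (ζ - 1) ^ k ≠ A.valuation c := by
  intro k hk0 hk c hc heq
  rw [cycloShift_natDegree p hp] at hk
  have hπ0 := valuation_zeta_sub_one_ne_zero A p hp ζ hζ
  have hπ1 := valuation_zeta_sub_one_lt_one A p hp hA ζ hζ
  rw [IntermediateField.mem_bot] at hc
  obtain ⟨q, rfl⟩ := hc
  by_cases hq : q = 0
  · subst hq
    rw [map_zero, map_zero] at heq
    exact pow_ne_zero k hπ0 heq
  · obtain ⟨m, hm⟩ := exists_zpow_valuation_rat A p hp hA q hq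
    rw [eq_ratCast, hm, valuation_natCast_eq_pow A p hp ζ hζ, ← zpow_natCast, ← zpow_natCast,
      ← zpow_mul] at heq
    have h1 := (zpow_right_strictAnti₀ (zero_lt_iff.mpr hπ0) hπ1).injective heq
    have h2 : ((p - 1 : ℕ) : ℤ) ∣ (k : ℤ) := ⟨m, h1⟩
    have h3 : (p - 1) ∣ k := by exact_mod_cast h2
    exact absurd (Nat.le_of_dvd hk0 h3) (not_le.mpr hk)

include hp hA hζ in
/-- The value group of `ℚ(ζ)` is generated by the valuation of `ζ - 1`. -/
theorem exists_zpow_valuation_cyclo (x : Qb) (hx : x ∈ IntermediateField.adjoin ℚ {ζ})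
    (hx0 : x ≠ 0) : ∃ n : ℤ, A.valuation x = A.valuation (ζ - 1) ^ n := by
  obtain ⟨c, hc, rfl⟩ := exists_coeffs_of_mem_adjoinField ⊥ (ζ - 1) (cycloShift p)
    (cycloShift_monic p) (cycloShift_aeval p hp ζ hζ) x (mem_adjoinField_bot_of_mem ζ x hx)
  have hindep := cyclo_indep A p hp hA ζ hζ
  have hdist := distinct_terms A ⊥ (ζ - 1) _ hindep c hc (ζ - 1) rfl
  have hv := valuation_sum_eq_sup A.valuation _ _ hdist
  have hne : (Finset.range (cycloShift p).natDegree).Nonempty := by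
    rw [cycloShift_natDegree p hp, Finset.nonempty_range_iff]
    have := hp.two_le
    omega
  obtain ⟨i, hi, his⟩ := Finset.exists_mem_eq_sup _ hne
    (fun i => A.valuation (c i * (ζ - 1) ^ i))
  rw [his] at hv
  rw [hv]
  have hci : c i ≠ 0 := by
    intro h0
    rw [h0, zero_mul, map_zero] at hv
    exact hx0 ((map_eq_zero _).mp hv)
  have hci' := hc i
  rw [IntermediateField.mem_bot] at hci'
  obtain ⟨q, hq⟩ := hci'
  have hq0 : q ≠ 0 := by
    rintro rfl
    rw [map_zero] at hq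
    exact hci hq.symm
  obtain ⟨m, hm⟩ := exists_zpow_valuation_rat A p hp hA q hq0
  refine ⟨((p - 1 : ℕ) : ℤ) * m + i, ?_⟩
  have hπ0 := valuation_zeta_sub_one_ne_zero A p hp ζ hζ
  rw [map_mul, map_pow, ← hq, eq_ratCast, hm, valuation_natCast_eq_pow A p hp ζ hζ,
    zpow_add₀ hπ0, zpow_mul, zpow_natCast, zpow_natCast]

include hp hA hζ in
/-- Every element of `ℚ(ζ)` which is integral at `A` is congruent to a rational integer modulo
the maximal ideal of `A` (the residue field of `ℚ(ζ)` at `p` is `𝔽_p`). -/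
theorem exists_int_valuation_sub_lt_one (x : Qb) (hx : x ∈ IntermediateField.adjoin ℚ {ζ})
    (hxA : A.valuation x ≤ 1) : ∃ m : ℤ, A.valuation (x - (m : Qb)) < 1 := by
  obtain ⟨c, hc, rfl⟩ := exists_coeffs_of_mem_adjoinField ⊥ (ζ - 1) (cycloShift p)
    (cycloShift_monic p) (cycloShift_aeval p hp ζ hζ) x (mem_adjoinField_bot_of_mem ζ x hx)
  have hindep := cyclo_indep A p hp hA ζ hζ
  obtain ⟨hle, hlt⟩ := terms_of_mem A ⊥ (ζ - 1) _ hindep c hc hxA
  have h0mem : 0 ∈ Finset.range (cycloShift p).natDegree := by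
    rw [cycloShift_natDegree p hp, Finset.mem_range]
    have := hp.two_le
    omega
  have hc0 := hc 0
  rw [IntermediateField.mem_bot] at hc0
  obtain ⟨q, hq⟩ := hc0
  have hq1 : A.valuation (q : Qb) ≤ 1 := by
    have := hle 0 h0mem
    rwa [pow_zero, mul_one, ← hq, eq_ratCast] at this
  obtain ⟨m, hm⟩ := exists_int_valuation_rat_sub_lt_one A p hp hA q hq1
  refine ⟨m, ?_⟩
  rw [← Finset.add_sum_erase _ _ h0mem, pow_zero, mul_one, ← hq, eq_ratCast, add_sub_right_comm]
  refine lt_of_le_of_lt (Valuation.map_add _ _ _) (max_lt hm ?_)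
  refine Valuation.map_sum_lt _ one_ne_zero fun i hi => ?_
  rw [Finset.mem_erase] at hi
  exact hlt i hi.2 (Nat.pos_of_ne_zero hi.1)

end cycloField

end Fermat.Agent.S14.H894
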