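import Mathlib
import Fermat.Prelude.Def_FLTPrelim_Ramification
import Fermat.Agent.S54.FrobExists

/-!
# S14 / H894 : membership criteria for the decomposition / inertia subgroup of a valuation
subring of `ℚ̄`, in terms of the prime of `ℤ̄` below it.
-/

set_option autoImplicit false
set_option linter.style.haveILetI false

open scoped Pointwise

namespace Fermat.Agent.S14.H894

open Fermat.Agent.S54

local notation "Qb" => AlgebraicClosure ℚ
local notation "GQ" => (AlgebraicClosure ℚ ≃ₐ[ℚ] AlgebraicClosure ℚ)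
local notation "Zb" => integralClosure ℤ (AlgebraicClosure ℚ)

theorem smul_mem_primeBelow_iff (A : ValuationSubring Qb) (σ : GQ)
    (hQ : σ • primeBelow A = primeBelow A) (x : Zb) :
    σ • x ∈ primeBelow A ↔ x ∈ primeBelow A := by
  conv_lhs => rw [← hQ]
  exact Ideal.smul_mem_pointwise_smul_iff

theorem map_mem_of_smul_primeBelow (A : ValuationSubring Qb) (ℓ : ℕ) (hℓ : ℓ.Prime)
    (hA : A.LiesOverPrime ℓ) (τ : GQ)
    (hτ : ∀ x : Zb, τ • x ∈ primeBelow A ↔ x ∈ primeBelow A) (x : Qb) (hx : x ∈ A) :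
    τ x ∈ A := by
  haveI : Algebra.IsAlgebraic ℚ Qb := AlgebraicClosure.isAlgebraic ℚ
  obtain ⟨b, s, hb, hs, hsA, hxs⟩ := (mem_valuationSubring_iff A ℓ hℓ hA x).mp hx
  refine (mem_valuationSubring_iff A ℓ hℓ hA (τ x)).mpr
    ⟨τ b, τ s, hb.map τ, hs.map τ, ?_, ?_⟩
  · exact (hτ ⟨s, hs⟩).not.mpr hsA
  · rw [← map_mul, hxs]

/-- An automorphism stabilising the prime of `ℤ̄` below `A` lies in the decomposition group. -/
theorem mem_decompositionSubgroup_of_smul_primeBelow (A : ValuationSubring Qb) (ℓ : ℕ)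
    (hℓ : ℓ.Prime) (hA : A.LiesOverPrime ℓ) (σ : GQ)
    (hQ : σ • primeBelow A = primeBelow A) : σ ∈ A.decompositionSubgroup ℚ := by
  have hσQ := smul_mem_primeBelow_iff A σ hQ
  rw [MulAction.mem_stabilizer_iff]
  ext x
  rw [ValuationSubring.mem_smul_pointwise_iff_exists]
  constructor
  · rintro ⟨s, hs, rfl⟩
    exact map_mem_of_smul_primeBelow A ℓ hℓ hA σ hσQ s hs
  · intro hx
    refine ⟨σ⁻¹ • x, map_mem_of_smul_primeBelow A ℓ hℓ hA σ⁻¹ ?_ x hx, by simp⟩
    intro y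
    rw [← hσQ (σ⁻¹ • y)]
    simp

/-- An automorphism stabilising the prime `Q` of `ℤ̄` below `A` and acting trivially on `ℤ̄ / Q`
lies in the inertia group of `A`. -/
theorem mem_inertiaSubgroupIn_of_forall (A : ValuationSubring Qb) (ℓ : ℕ)
    (hℓ : ℓ.Prime) (hA : A.LiesOverPrime ℓ) (σ : GQ)
    (hQ : σ • primeBelow A = primeBelow A)
    (h : ∀ x : Zb, σ • x - x ∈ primeBelow A) : σ ∈ A.inertiaSubgroupIn ℚ := by
  haveI : Algebra.IsAlgebraic ℚ Qb := AlgebraicClosure.isAlgebraic ℚ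
  have hσA := mem_decompositionSubgroup_of_smul_primeBelow A ℓ hℓ hA σ hQ
  have hσQ := smul_mem_primeBelow_iff A σ hQ
  refine ⟨⟨σ, hσA⟩, ?_, rfl⟩
  show (⟨σ, hσA⟩ : A.decompositionSubgroup ℚ) ∈ MonoidHom.ker _
  rw [MonoidHom.mem_ker]
  ext x
  show (⟨σ, hσA⟩ : A.decompositionSubgroup ℚ) • x = x
  obtain ⟨a, rfl⟩ := IsLocalRing.residue_surjective x
  obtain ⟨b, s, hb, hs, hsA, hxs⟩ := (mem_valuationSubring_iff A ℓ hℓ hA a).mp a.2
  have hbA : b ∈ A := isIntegral_mem_valuationSubring A hb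
  have hsA' : s ∈ A := isIntegral_mem_valuationSubring A hs
  have hint : ∀ (y : Qb) (hy : IsIntegral ℤ y),
      (⟨σ, hσA⟩ : A.decompositionSubgroup ℚ) •
        IsLocalRing.residue A ⟨y, isIntegral_mem_valuationSubring A hy⟩ =
      IsLocalRing.residue A ⟨y, isIntegral_mem_valuationSubring A hy⟩ := by
    intro y hy
    rw [← IsLocalRing.ResidueField.residue_smul, ← sub_eq_zero, ← map_sub,
      IsLocalRing.residue_eq_zero_iff, ← ValuationSubring.coe_mem_nonunits_iff]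
    exact h ⟨y, hy⟩
  have h1 : IsLocalRing.residue A a * IsLocalRing.residue A ⟨s, hsA'⟩ =
      IsLocalRing.residue A ⟨b, hbA⟩ := by
    rw [← map_mul]
    congr 1
    exact Subtype.ext hxs
  have h2 : IsLocalRing.residue A ⟨s, hsA'⟩ ≠ 0 := by
    rw [Ne, IsLocalRing.residue_eq_zero_iff, ← ValuationSubring.coe_mem_nonunits_iff]
    exact hsA
  have h3 := congrArg (fun z => (⟨σ, hσA⟩ : A.decompositionSubgroup ℚ) • z) h1
  simp only [smul_mul'] at h3
  rw [hint s hs, hint b hb, ← h1] at h3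
  exact mul_right_cancel₀ h2 h3

end Fermat.Agent.S14.H894
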