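import Fermat.Agent.S14.H894.LocalI
import Fermat.Agent.S14.H894.Cyclo

/-!
# S14 / H894 : LOCAL-D

`exists_int_valuation_sub_le_pow_of_inertia_fixed` : let `p` be a prime, `A` a valuation subring
of `ℚ̄` over `p`, `ζ` a primitive `p`-th root of unity, `β ∈ ℚ̄` with `ε = β ^ p ∈ ℚ(ζ)` a unit at
`A`.  If every element of the inertia group of `A` fixing `ℚ(ζ)` pointwise fixes `β`, then
`ε` is congruent to a rational integer (prime to `p`) modulo `(ζ - 1) ^ p`, in particular modulo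
`(ζ - 1) ^ 3` when `3 ≤ p`.

Only the inertia group is used (not the decomposition group); no Dedekind domains, no
completions.
-/

set_option autoImplicit false
set_option linter.style.haveILetI false

open scoped Pointwise

namespace Fermat.Agent.S14.H894

open Polynomial Fermat.Agent.S54

local notation "Qb" => AlgebraicClosure ℚ
local notation "GQ" => (AlgebraicClosure ℚ ≃ₐ[ℚ] AlgebraicClosure ℚ)

section newton

variable (A : ValuationSubring Qb) (p : ℕ) (hp : p.Prime) (hA : A.LiesOverPrime p)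

include hp hA in
/-- Newton polygon of `(1 + X)^p - e`: if `b ^ p = e` with `e ≡ 1` modulo the maximal ideal and
`v(p) ≤ v(e - 1)`, then `v(b - 1)^p = v(e - 1)`. -/
theorem valuation_sub_one_pow_eq (b e : Qb) (hb : b ^ p = e) (he : A.valuation e = 1)
    (hone : A.valuation (e - 1) < 1)
    (hlow : A.valuation (p : Qb) ≤ A.valuation (e - 1)) :
    A.valuation (b - 1) ^ p = A.valuation (e - 1) := by
  have hvp1 := valuation_natCast_prime_lt_one A p hA
  have hvp0 := valuation_natCast_prime_ne_zero A p hp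
  have hvb : A.valuation b = 1 := by
    have : A.valuation b ^ p = 1 := by rw [← map_pow, hb, he]
    exact (pow_eq_one_iff_left hp.ne_zero).mp this
  have hbA : b ∈ A := (A.valuation_le_one_iff b).mp hvb.le
  have hγA : b - 1 ∈ A := A.sub_mem hbA A.one_mem
  obtain ⟨r, hr⟩ := exists_add_pow_prime_eq hp (⟨b - 1, hγA⟩ : A) 1
  have hr' : ((b - 1) + 1) ^ p = (b - 1) ^ p + 1 ^ p + (p : Qb) * (b - 1) * 1 * (r : Qb) := by
    have := congrArg (Subtype.val) hr
    simpa using this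
  rw [sub_add_cancel, hb, one_pow, mul_one] at hr'
  have h1 : (b - 1) ^ p = (e - 1) - (p : Qb) * (b - 1) * (r : Qb) := by
    rw [hr']; ring
  have hvr : A.valuation (r : Qb) ≤ 1 := (A.valuation_le_one_iff _).mpr r.2
  have h2 : A.valuation ((p : Qb) * (b - 1) * (r : Qb)) ≤
      A.valuation (p : Qb) * A.valuation (b - 1) := by
    rw [map_mul, map_mul]
    exact mul_le_of_le_one_right zero_le hvr
  -- `b - 1` lies in the maximal ideal
  have hγ1 : A.valuation (b - 1) < 1 := by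
    have h3 : A.valuation ((b - 1) ^ p) < 1 := by
      rw [h1]
      refine lt_of_le_of_lt (Valuation.map_sub _ _ _) (max_lt hone ?_)
      refine lt_of_le_of_lt h2 ?_
      exact lt_of_le_of_lt (mul_le_of_le_one_right zero_le
        ((A.valuation_le_one_iff _).mpr hγA)) hvp1
    rw [map_pow] at h3
    by_contra hcon
    rw [not_lt] at hcon
    exact absurd (one_le_pow₀ hcon) (not_le.mpr h3)
  have h4 : A.valuation ((p : Qb) * (b - 1) * (r : Qb)) < A.valuation (e - 1) := by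
    refine lt_of_le_of_lt h2 (lt_of_lt_of_le ?_ hlow)
    calc A.valuation (p : Qb) * A.valuation (b - 1) < A.valuation (p : Qb) * 1 :=
          mul_lt_mul_of_pos_left hγ1 (zero_lt_iff.mpr hvp0)
      _ = A.valuation (p : Qb) := mul_one _
  rw [← map_pow, h1]
  exact Valuation.map_sub_eq_of_lt_left _ h4

end newton

section main

variable (A : ValuationSubring Qb) (p : ℕ) (hp : p.Prime) (hA : A.LiesOverPrime p)
  (ζ : Qb) (hζ : IsPrimitiveRoot ζ p)

theorem valuation_intCast_le_of_dvd_sq (a : ℤ) (ha : (p : ℤ) ^ 2 ∣ a) :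
    A.valuation (a : Qb) ≤ A.valuation (p : Qb) ^ 2 := by
  obtain ⟨t, rfl⟩ := ha
  push_cast
  rw [map_mul, map_pow]
  exact mul_le_of_le_one_right zero_le (valuation_intCast_le_one A t)

theorem valuation_zeta_sub_one_le_one (hp0 : p ≠ 0) (hζ1 : ζ ^ p = 1) :
    A.valuation (ζ - 1) ≤ 1 := by
  have hz : A.valuation ζ ≤ 1 := valuation_le_one_of_pow_eq_one A hp0 hζ1
  exact (A.valuation_le_one_iff _).mpr
    (A.sub_mem ((A.valuation_le_one_iff _).mp hz) A.one_mem)

include hp hζ in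
theorem valuation_natCast_sq_le_pow :
    A.valuation (p : Qb) ^ 2 ≤ A.valuation (ζ - 1) ^ p := by
  rw [valuation_natCast_eq_pow A p hp ζ hζ, ← pow_mul]
  refine pow_le_pow_of_le_one zero_le
    (valuation_zeta_sub_one_le_one A p ζ hp.ne_zero hζ.pow_eq_one) ?_
  have := hp.two_le
  have h1 : p - 1 + 1 = p := Nat.sub_add_cancel hp.one_le
  nlinarith

include hp hA hζ in
/-- **LOCAL-D**, normalised case `ε ≡ 1` modulo the maximal ideal. -/
theorem valuation_sub_one_le_of_inertia_fixed (β : Qb)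
    (hβK : β ^ p ∈ IntermediateField.adjoin ℚ {ζ})
    (hunit : A.valuation (β ^ p) = 1) (hone : A.valuation (β ^ p - 1) < 1)
    (hfix : ∀ σ ∈ A.inertiaSubgroupIn ℚ,
      (∀ x ∈ IntermediateField.adjoin ℚ {ζ}, σ x = x) → σ β = β) :
    A.valuation (β ^ p - 1) ≤ A.valuation (ζ - 1) ^ p := by
  by_contra hgt
  rw [not_le] at hgt
  set K : IntermediateField ℚ Qb := IntermediateField.adjoin ℚ {ζ} with hK
  set ε : Qb := β ^ p with hε
  have hπ0 := valuation_zeta_sub_one_ne_zero A p hp ζ hζ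
  have hπ1 := valuation_zeta_sub_one_lt_one A p hp hA ζ hζ
  have hanti := zpow_right_strictAnti₀ (zero_lt_iff.mpr hπ0) hπ1
  have hε1K : ε - 1 ∈ K := K.sub_mem hβK K.one_mem
  have hε10 : ε - 1 ≠ 0 := by
    intro h0
    rw [h0, map_zero] at hgt
    exact not_lt.mpr zero_le hgt
  obtain ⟨k, hk⟩ := exists_zpow_valuation_cyclo A p hp hA ζ hζ (ε - 1) hε1K hε10
  have hk0 : 0 < k := by
    have : A.valuation (ζ - 1) ^ k < A.valuation (ζ - 1) ^ (0 : ℤ) := by
      rw [zpow_zero, ← hk]; exact hone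
    exact hanti.lt_iff_gt.mp this
  have hkp : k < p := by
    have : A.valuation (ζ - 1) ^ (p : ℤ) < A.valuation (ζ - 1) ^ k := by
      rw [← hk, zpow_natCast]; exact hgt
    exact hanti.lt_iff_gt.mp this
  have hlow : A.valuation (p : Qb) ≤ A.valuation (ε - 1) := by
    rw [valuation_natCast_eq_pow A p hp ζ hζ, hk, ← zpow_natCast]
    refine hanti.antitone ?_
    have h1 : ((p - 1 : ℕ) : ℤ) = (p : ℤ) - 1 := by
      rw [Nat.cast_sub hp.one_le]; simp
    omega
  have hγp : ∀ b : Qb, b ^ p = ε → A.valuation (b - 1) ^ p = A.valuation (ε - 1) :=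
    fun b hb => valuation_sub_one_pow_eq A p hp hA b ε hb hunit hone hlow
  -- the polynomial
  let e : K := ⟨ε, hβK⟩
  let f : K[X] := (X + C 1) ^ p - C e
  have hdegC : (C e : K[X]).degree < ((X + C 1 : K[X]) ^ p).degree := by
    rw [degree_pow, degree_X_add_C, nsmul_one]
    exact lt_of_le_of_lt degree_C_le (by exact_mod_cast hp.pos)
  have hf : f.Monic := ((monic_X_add_C (1 : K)).pow p).sub_of_left hdegC
  have hdeg : f.natDegree = p := by
    have h1 : ((X + C 1 : K[X]) ^ p).natDegree = p := by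
      rw [natDegree_pow, natDegree_X_add_C, mul_one]
    have h2 : (C e : K[X]).natDegree < ((X + C 1 : K[X]) ^ p).natDegree := by
      rw [h1, natDegree_C]; exact hp.pos
    rw [natDegree_sub_eq_left_of_natDegree_lt h2, h1]
  have hγ : aeval (β - 1) f = 0 := by
    simp only [f, map_sub, map_pow, map_add, aeval_X, aeval_C, map_one, sub_add_cancel]
    show β ^ p - (e : Qb) = 0
    exact sub_self _
  have hvγ0 : A.valuation (β - 1) ≠ 0 := by
    intro h0
    have := hγp β rfl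
    rw [h0, zero_pow hp.ne_zero] at this
    exact hε10 ((map_eq_zero _).mp this.symm)
  have hindep : ∀ j : ℕ, 0 < j → j < f.natDegree → ∀ c ∈ K,
      A.valuation (β - 1) ^ j ≠ A.valuation c := by
    intro j hj0 hjp c hc heq
    rw [hdeg] at hjp
    have hc0 : c ≠ 0 := by
      rintro rfl
      rw [map_zero] at heq
      exact pow_ne_zero j hvγ0 heq
    obtain ⟨t, ht⟩ := exists_zpow_valuation_cyclo A p hp hA ζ hζ c hc hc0
    have h1 : A.valuation (ζ - 1) ^ (k * j) = A.valuation (ζ - 1) ^ (t * p) := by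
      rw [zpow_mul, ← hk, ← hγp β rfl, zpow_mul, ← ht, ← heq, zpow_natCast, zpow_natCast,
        ← pow_mul, ← pow_mul, mul_comm]
    have h2 : k * j = t * p := hanti.injective h1
    have h3 : (p : ℤ) ∣ k * j := ⟨t, by rw [h2, mul_comm]⟩
    rcases (Nat.prime_iff_prime_int.mp hp).dvd_or_dvd h3 with h4 | h4
    · have := Int.le_of_dvd hk0 h4
      omega
    · have h5 : p ∣ j := by exact_mod_cast h4
      exact absurd (Nat.le_of_dvd hj0 h5) (not_le.mpr hjp)
  have hconj : ∀ τ : GQ, (∀ x ∈ K, τ x = x) →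
      A.valuation (τ (β - 1)) = A.valuation (β - 1) := by
    intro τ hτ
    have h1 : (τ β) ^ p = ε := by
      rw [← map_pow]; exact hτ _ hβK
    have h2 := hγp (τ β) h1
    rw [← hγp β rfl] at h2
    rw [map_sub, map_one]
    exact (pow_left_inj hp.ne_zero).mp h2
  have hβK' : β ∉ K := by
    intro hmem
    exact hindep 1 one_pos (by rw [hdeg]; exact hp.one_lt) (β - 1)
      (K.sub_mem hmem K.one_mem) (pow_one _)
  obtain ⟨τ, hτK, hτβ⟩ := exists_fixing_ne_of_not_mem K β hβK'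
  obtain ⟨σ, hσI, hσK, hσγ⟩ :=
    exists_inertia_eq_on_adjoin A p hp hA K (β - 1) f hf hγ hindep hconj τ hτK
  apply hτβ
  rw [map_sub, map_sub, map_one, map_one] at hσγ
  have := sub_left_injective hσγ
  rw [← this]
  exact hfix σ hσI hσK

include hp hA hζ in
/-- **LOCAL-D**: if `ε = β ^ p ∈ ℚ(ζ)` is a unit at `A` (over `p`) and the inertia group of `A`
over `ℚ(ζ)` fixes `β`, then `ε` is congruent to the `p`-th power of a rational integer prime to
`p` modulo `(ζ - 1) ^ p`. -/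
theorem exists_int_pow_valuation_sub_le_of_inertia_fixed (β : Qb)
    (hβK : β ^ p ∈ IntermediateField.adjoin ℚ {ζ})
    (hunit : A.valuation (β ^ p) = 1)
    (hfix : ∀ σ ∈ A.inertiaSubgroupIn ℚ,
      (∀ x ∈ IntermediateField.adjoin ℚ {ζ}, σ x = x) → σ β = β) :
    ∃ m : ℤ, ¬ (p : ℤ) ∣ m ∧
      A.valuation (β ^ p - ((m ^ p : ℤ) : Qb)) ≤ A.valuation (ζ - 1) ^ p := by
  haveI : Fact p.Prime := ⟨hp⟩
  set K : IntermediateField ℚ Qb := IntermediateField.adjoin ℚ {ζ} with hK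
  obtain ⟨m, hm⟩ := exists_int_valuation_sub_lt_one A p hp hA ζ hζ (β ^ p) hβK hunit.le
  have hmp : ¬ (p : ℤ) ∣ m := by
    intro hdvd
    have h1 := valuation_intCast_lt_one_of_dvd A p hA m hdvd
    have h2 : A.valuation (β ^ p) < 1 := by
      have : β ^ p = (β ^ p - (m : Qb)) + (m : Qb) := by ring
      rw [this]
      exact lt_of_le_of_lt (Valuation.map_add _ _ _) (max_lt hm h1)
    rw [hunit] at h2
    exact lt_irrefl _ h2
  have hm0 : (m : ZMod p) ≠ 0 := by
    rwa [Ne, ZMod.intCast_zmod_eq_zero_iff_dvd]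
  obtain ⟨n, hn⟩ := ZMod.intCast_surjective ((m : ZMod p)⁻¹)
  have hmn : (m : ZMod p) * (n : ZMod p) = 1 := by
    rw [hn, mul_inv_cancel₀ hm0]
  have hn0 : (n : ZMod p) ≠ 0 := by
    intro h0
    rw [h0, mul_zero] at hmn
    exact zero_ne_one hmn
  have hnp : ¬ (p : ℤ) ∣ n := by
    rwa [← ZMod.intCast_zmod_eq_zero_iff_dvd]
  have hvn : A.valuation (n : Qb) = 1 := valuation_intCast_eq_one A p hp hA n hnp
  have hvnp : A.valuation ((n : Qb) ^ p) = 1 := by rw [map_pow, hvn, one_pow]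
  -- integer congruences
  have hd1 : (p : ℤ) ∣ m * n ^ p - 1 := by
    rw [← ZMod.intCast_zmod_eq_zero_iff_dvd]
    push_cast
    rw [ZMod.pow_card, hmn, sub_self]
  have hd0 : (p : ℤ) ∣ 1 - m * n := by
    rw [← ZMod.intCast_zmod_eq_zero_iff_dvd]
    push_cast
    rw [hmn, sub_self]
  have hd2 : (p : ℤ) ^ 2 ∣ 1 - (m * n) ^ p := by
    have := dvd_sub_pow_of_dvd_sub hd0 1
    simpa using this
  -- the normalised element
  have hβ' : (β * (n : Qb)) ^ p = β ^ p * (n : Qb) ^ p := mul_pow _ _ _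
  have hnK : (n : Qb) ∈ K := intCast_mem K n
  have hβK' : (β * (n : Qb)) ^ p ∈ K := by
    rw [hβ']; exact K.mul_mem hβK (pow_mem hnK p)
  have hunit' : A.valuation ((β * (n : Qb)) ^ p) = 1 := by
    rw [hβ', map_mul, hunit, hvnp, one_mul]
  have hone' : A.valuation ((β * (n : Qb)) ^ p - 1) < 1 := by
    have h1 : (β * (n : Qb)) ^ p - 1 =
        (β ^ p - (m : Qb)) * (n : Qb) ^ p + ((m * n ^ p - 1 : ℤ) : Qb) := by
      rw [hβ']; push_cast; ring
    rw [h1]
    refine lt_of_le_of_lt (Valuation.map_add _ _ _) (max_lt ?_ ?_)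
    · rw [map_mul, hvnp, mul_one]; exact hm
    · exact valuation_intCast_lt_one_of_dvd A p hA _ hd1
  have hfix' : ∀ σ ∈ A.inertiaSubgroupIn ℚ, (∀ x ∈ K, σ x = x) →
      σ (β * (n : Qb)) = β * (n : Qb) := by
    intro σ hσ hσK
    rw [map_mul, hfix σ hσ hσK, map_intCast]
  have hmain := valuation_sub_one_le_of_inertia_fixed A p hp hA ζ hζ (β * (n : Qb))
    hβK' hunit' hone' hfix'
  refine ⟨m, hmp, ?_⟩
  have h2 : (β ^ p - ((m ^ p : ℤ) : Qb)) * (n : Qb) ^ p =
      ((β * (n : Qb)) ^ p - 1) + ((1 - (m * n) ^ p : ℤ) : Qb) := by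
    rw [hβ']; push_cast; ring
  have h3 : A.valuation ((β ^ p - ((m ^ p : ℤ) : Qb)) * (n : Qb) ^ p) ≤
      A.valuation (ζ - 1) ^ p := by
    rw [h2]
    refine le_trans (Valuation.map_add _ _ _) (max_le hmain ?_)
    exact le_trans (valuation_intCast_le_of_dvd_sq A p _ hd2)
      (valuation_natCast_sq_le_pow A p hp ζ hζ)
  rwa [map_mul, hvnp, mul_one] at h3

include hp hA hζ in
/-- **LOCAL-D**, modulo `(ζ - 1) ^ p`. -/
theorem exists_int_valuation_sub_le_pow_of_inertia_fixed (β : Qb)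
    (hβK : β ^ p ∈ IntermediateField.adjoin ℚ {ζ})
    (hunit : A.valuation (β ^ p) = 1)
    (hfix : ∀ σ ∈ A.inertiaSubgroupIn ℚ,
      (∀ x ∈ IntermediateField.adjoin ℚ {ζ}, σ x = x) → σ β = β) :
    ∃ m : ℤ, ¬ (p : ℤ) ∣ m ∧
      A.valuation (β ^ p - (m : Qb)) ≤ A.valuation (ζ - 1) ^ p := by
  obtain ⟨m, hm, h⟩ :=
    exists_int_pow_valuation_sub_le_of_inertia_fixed A p hp hA ζ hζ β hβK hunit hfix
  exact ⟨m ^ p, fun hd => hm ((Nat.prime_iff_prime_int.mp hp).dvd_of_dvd_pow hd), h⟩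

include hp hA hζ in
/-- **LOCAL-D**, modulo `(ζ - 1) ^ 3`, for `p ≥ 3`. -/
theorem exists_int_valuation_sub_le_of_inertia_fixed (hp3 : 3 ≤ p) (β : Qb)
    (hβK : β ^ p ∈ IntermediateField.adjoin ℚ {ζ})
    (hunit : A.valuation (β ^ p) = 1)
    (hfix : ∀ σ ∈ A.inertiaSubgroupIn ℚ,
      (∀ x ∈ IntermediateField.adjoin ℚ {ζ}, σ x = x) → σ β = β) :
    ∃ m : ℤ, ¬ (p : ℤ) ∣ m ∧
      A.valuation (β ^ p - (m : Qb)) ≤ A.valuation (ζ - 1) ^ 3 := by
  obtain ⟨m, hm, h⟩ :=
    exists_int_valuation_sub_le_pow_of_inertia_fixed A p hp hA ζ hζ β hβK hunit hfix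
  exact ⟨m, hm, le_trans h (pow_le_pow_of_le_one zero_le
    (valuation_zeta_sub_one_le_one A p ζ hp.ne_zero hζ.pow_eq_one) hp3)⟩

/-- An automorphism fixing `ζ` fixes `ℚ(ζ)` pointwise. -/
theorem fixes_adjoin_of_fixes (σ : GQ) (hσ : σ ζ = ζ) :
    ∀ x ∈ IntermediateField.adjoin ℚ {ζ}, σ x = x := by
  intro x hx
  induction hx using IntermediateField.adjoin_induction with
  | mem x hx => rw [Set.mem_singleton_iff] at hx; rw [hx]; exact hσ
  | algebraMap x => exact σ.commutes x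
  | add x y _ _ hx hy => rw [map_add, hx, hy]
  | inv x _ hx => rw [map_inv₀, hx]
  | mul x y _ _ hx hy => rw [map_mul, hx, hy]

theorem mem_decompositionSubgroup_of_mem_inertiaSubgroupIn (σ : GQ)
    (hσ : σ ∈ A.inertiaSubgroupIn ℚ) : σ ∈ A.decompositionSubgroup ℚ := by
  obtain ⟨τ, -, rfl⟩ := hσ
  exact τ.2

include hp hA hζ in
/-- **LOCAL-D in the frozen shape `H554.LocalDInput p ζ`** (unfolded), for a prime `p ≥ 3` and
a primitive `p`-th root of unity `ζ`. -/
theorem localD (hp3 : 3 ≤ p) (b : Qb) (hbK : b ^ p ∈ IntermediateField.adjoin ℚ {ζ})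
    (hb1 : A.valuation b = 1)
    (hfix : ∀ σ ∈ A.decompositionSubgroup ℚ, σ ζ = ζ → σ b = b) :
    ∃ m : ℤ, A.valuation (b ^ p - (m : Qb)) ≤ A.valuation ((ζ - 1) ^ 3) := by
  have hunit : A.valuation (b ^ p) = 1 := by rw [map_pow, hb1, one_pow]
  obtain ⟨m, -, h⟩ := exists_int_valuation_sub_le_of_inertia_fixed A p hp hA ζ hζ hp3 b hbK
    hunit (fun σ hσ hσK => hfix σ (mem_decompositionSubgroup_of_mem_inertiaSubgroupIn A σ hσ)
      (hσK ζ (IntermediateField.subset_adjoin ℚ _ rfl)))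
  exact ⟨m, by rw [map_pow]; exact h⟩

end main

end Fermat.Agent.S14.H894
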