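import Fermat.Agent.S14.H894.TotRam

/-!
# S14 / H894 : LOCAL-I

`exists_inertia_moving_root` : if `β ^ p ∈ K` (`p` prime) and the valuation of `β` is not the
valuation of an element of `K`, then some element of the inertia group of `A` fixes `K`
pointwise and moves `β`.

Contrapositive (`exists_valuation_eq_of_inertia_fixed`): if every element of `I_A` fixing `K`
pointwise fixes `β`, then `v(β) = v(c)` for some `c ∈ K`, hence `v(β ^ p) = v(c) ^ p`.
-/

set_option autoImplicit false
set_option linter.style.haveILetI false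

open scoped Pointwise

namespace Fermat.Agent.S14.H894

open Polynomial Fermat.Agent.S54

local notation "Qb" => AlgebraicClosure ℚ
local notation "GQ" => (AlgebraicClosure ℚ ≃ₐ[ℚ] AlgebraicClosure ℚ)

/-- An element of `ℚ̄` outside the intermediate field `K` is moved by some element of
`Gal(ℚ̄/K)`. -/
theorem exists_fixing_ne_of_not_mem (K : IntermediateField ℚ Qb) (β : Qb) (hβ : β ∉ K) :
    ∃ τ : GQ, (∀ x ∈ K, τ x = x) ∧ τ β ≠ β := by
  haveI := isGalois_algebraicClosure_rat
  by_contra hcon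
  push Not at hcon
  apply hβ
  rw [← InfiniteGalois.fixedField_fixingSubgroup K, IntermediateField.mem_fixedField_iff]
  intro τ hτ
  exact hcon τ (fun x hx => (IntermediateField.mem_fixingSubgroup_iff K τ).mp hτ x hx)

/-- **LOCAL-I**, existence form. -/
theorem exists_inertia_moving_root (A : ValuationSubring Qb) (ℓ : ℕ) (hℓ : ℓ.Prime)
    (hA : A.LiesOverPrime ℓ) (K : IntermediateField ℚ Qb) (p : ℕ) (hp : p.Prime)
    (β : Qb) (hβK : β ^ p ∈ K) (hval : ∀ c ∈ K, A.valuation β ≠ A.valuation c) :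
    ∃ σ ∈ A.inertiaSubgroupIn ℚ, (∀ x ∈ K, σ x = x) ∧ σ β ≠ β := by
  have hβ0 : β ≠ 0 := by
    rintro rfl
    exact hval 0 K.zero_mem rfl
  have hvβ0 : A.valuation β ≠ 0 := (Valuation.ne_zero_iff _).mpr hβ0
  have hβK' : β ∉ K := fun h => hval β h rfl
  obtain ⟨τ, hτK, hτβ⟩ := exists_fixing_ne_of_not_mem K β hβK'
  -- the polynomial
  let α : K := ⟨β ^ p, hβK⟩
  let f : K[X] := X ^ p - C α
  have hf : f.Monic := monic_X_pow_sub_C α hp.ne_zero
  have hdeg : f.natDegree = p := natDegree_X_pow_sub_C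
  have hγ : aeval β f = 0 := by
    simp only [f, map_sub, map_pow, aeval_X, aeval_C]
    show β ^ p - (α : Qb) = 0
    exact sub_self _
  have hindep : ∀ k : ℕ, 0 < k → k < f.natDegree → ∀ c ∈ K,
      A.valuation β ^ k ≠ A.valuation c := by
    intro k hk0 hkp c hc heq
    rw [hdeg] at hkp
    have hcop : Nat.Coprime k p :=
      (Nat.coprime_of_lt_prime hk0.ne' hkp hp).symm
    obtain ⟨m, -, hm⟩ := Nat.exists_mul_mod_eq_one_of_coprime hcop hp.one_lt
    have hkm : k * m = p * (k * m / p) + 1 := by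
      have := Nat.div_add_mod (k * m) p
      rw [hm] at this
      exact this.symm
    set t := k * m / p with ht
    have h1 : A.valuation β ^ (k * m) = A.valuation (c ^ m) := by
      rw [pow_mul, heq, map_pow]
    have h2 : A.valuation β ^ (k * m) = A.valuation ((β ^ p) ^ t) * A.valuation β := by
      rw [hkm, pow_succ, pow_mul, map_pow, map_pow]
    have hα0 : A.valuation ((β ^ p) ^ t) ≠ 0 :=
      (Valuation.ne_zero_iff _).mpr (pow_ne_zero _ (pow_ne_zero _ hβ0))
    refine hval (c ^ m / (β ^ p) ^ t) (K.div_mem (pow_mem hc m) (pow_mem hβK t)) ?_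
    rw [map_div₀, eq_div_iff hα0, mul_comm, ← h2, h1]
  have hconj : ∀ τ : GQ, (∀ x ∈ K, τ x = x) → A.valuation (τ β) = A.valuation β := by
    intro τ hτ
    have h1 : (τ β) ^ p = β ^ p := by
      rw [← map_pow]; exact hτ _ hβK
    have h2 : A.valuation (τ β) ^ p = A.valuation β ^ p := by
      rw [← Valuation.map_pow, h1, Valuation.map_pow]
    exact (pow_left_inj hp.ne_zero).mp h2
  obtain ⟨σ, hσI, hσK, hσβ⟩ :=
    exists_inertia_eq_on_adjoin A ℓ hℓ hA K β f hf hγ hindep hconj τ hτK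
  exact ⟨σ, hσI, hσK, by rw [hσβ]; exact hτβ⟩

/-- **LOCAL-I**: if every element of the inertia group of `A` fixing `K` pointwise fixes `β`,
where `β ^ p ∈ K`, then the valuation of `β` is the valuation of an element of `K`. -/
theorem exists_valuation_eq_of_inertia_fixed (A : ValuationSubring Qb) (ℓ : ℕ) (hℓ : ℓ.Prime)
    (hA : A.LiesOverPrime ℓ) (K : IntermediateField ℚ Qb) (p : ℕ) (hp : p.Prime)
    (β : Qb) (hβK : β ^ p ∈ K)
    (hfix : ∀ σ ∈ A.inertiaSubgroupIn ℚ, (∀ x ∈ K, σ x = x) → σ β = β) :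
    ∃ c ∈ K, A.valuation β = A.valuation c := by
  by_contra hcon
  push Not at hcon
  obtain ⟨σ, hσI, hσK, hσβ⟩ := exists_inertia_moving_root A ℓ hℓ hA K p hp β hβK hcon
  exact hσβ (hfix σ hσI hσK)

/-- **LOCAL-I**, Kummer form: the valuation of `α = β ^ p` is a `p`-th power of the valuation
of an element of `K`. -/
theorem exists_valuation_eq_pow_of_inertia_fixed (A : ValuationSubring Qb) (ℓ : ℕ)
    (hℓ : ℓ.Prime) (hA : A.LiesOverPrime ℓ) (K : IntermediateField ℚ Qb) (p : ℕ)
    (hp : p.Prime) (β : Qb) (hβK : β ^ p ∈ K)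
    (hfix : ∀ σ ∈ A.inertiaSubgroupIn ℚ, (∀ x ∈ K, σ x = x) → σ β = β) :
    ∃ c ∈ K, A.valuation (β ^ p) = A.valuation (c ^ p) := by
  obtain ⟨c, hc, h⟩ := exists_valuation_eq_of_inertia_fixed A ℓ hℓ hA K p hp β hβK hfix
  exact ⟨c, hc, by rw [map_pow, map_pow, h]⟩

end Fermat.Agent.S14.H894
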