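import Mathlib
import Fermat.Prelude.Def_FLTPrelim_Ramification
import Fermat.Agent.S54.FrobExists

/-!
# S14 / H894 : profinite lifting for closed subgroups of `Gal(ℚ̄/ℚ)` acting on `ℤ̄`

Two wrappers around Mathlib's `RingTheory/Invariant/Profinite`, specialised to a closed subgroup
`H` of the absolute Galois group of `ℚ` acting on the ring `ℤ̄` of all algebraic integers, with
the ring of `H`-invariants as base ring (no Galois correspondence needed at this stage).
-/

set_option autoImplicit false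
set_option linter.style.haveILetI false

open scoped Pointwise

namespace Fermat.Agent.S14.H894

local notation "Qb" => AlgebraicClosure ℚ
local notation "GQ" => (AlgebraicClosure ℚ ≃ₐ[ℚ] AlgebraicClosure ℚ)
local notation "Zb" => integralClosure ℤ (AlgebraicClosure ℚ)

/-- Transitivity: a closed subgroup `H` of `Gal(ℚ̄/ℚ)` acts transitively on the primes of `ℤ̄`
having the same intersection with the ring of `H`-invariants. -/
theorem exists_smul_eq_of_closed (H : Subgroup GQ) (hH : IsClosed (H : Set GQ))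
    (P Q : Ideal Zb) [P.IsPrime] [Q.IsPrime]
    (hPQ : ∀ y : Zb, (∀ h ∈ H, h • y = y) → (y ∈ P ↔ y ∈ Q)) :
    ∃ g ∈ H, Q = g • P := by
  haveI := Fermat.Agent.S54.isGalois_algebraicClosure_rat
  letI : TopologicalSpace Zb := ⊥
  haveI : DiscreteTopology Zb := ⟨rfl⟩
  haveI := Fermat.Agent.S54.continuousSMul_integralClosure
  haveI : CompactSpace H := isCompact_iff_compactSpace.mp hH.isCompact
  haveI : TotallyDisconnectedSpace H := Subtype.totallyDisconnectedSpace
  haveI : SMulCommClass H ℤ Zb := ⟨fun g n x => smul_comm (g : GQ) n x⟩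
  let A0 := FixedPoints.subalgebra ℤ Zb H
  haveI : SMulCommClass H A0 Zb :=
    ⟨fun g a x => by
      show g • ((a : Zb) * x) = (a : Zb) * g • x
      rw [smul_mul', a.2 g]⟩
  haveI : Algebra.IsInvariant A0 Zb H := ⟨fun b hb => ⟨⟨b, hb⟩, rfl⟩⟩
  have hunder : P.under A0 = Q.under A0 := by
    ext y
    simp only [Ideal.under_def, Ideal.mem_comap]
    exact hPQ y.1 (fun h hh => y.2 ⟨h, hh⟩)
  obtain ⟨g, hg⟩ :=
    Algebra.IsInvariant.exists_smul_of_under_eq_of_profinite (A := A0) (G := H) P Q hunder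
  exact ⟨g.1, g.2, hg⟩

/-- Surjectivity of the stabiliser onto residue automorphisms, in elementwise form: if `σ`
stabilises the prime `Q` of `ℤ̄` and acts trivially modulo `Q` on the `H`-invariants, then some
`g ∈ H` stabilises `Q` and acts on `ℤ̄ / Q` like `σ`. -/
theorem exists_mem_stabilizer_of_closed (H : Subgroup GQ) (hH : IsClosed (H : Set GQ))
    (Q : Ideal Zb) [Q.IsPrime] (σ : GQ) (hσQ : σ • Q = Q)
    (hσ : ∀ y : Zb, (∀ h ∈ H, h • y = y) → σ • y - y ∈ Q) :
    ∃ g ∈ H, g • Q = Q ∧ ∀ x : Zb, g • x - σ • x ∈ Q := by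
  haveI := Fermat.Agent.S54.isGalois_algebraicClosure_rat
  letI : TopologicalSpace Zb := ⊥
  haveI : DiscreteTopology Zb := ⟨rfl⟩
  haveI := Fermat.Agent.S54.continuousSMul_integralClosure
  haveI : CompactSpace H := isCompact_iff_compactSpace.mp hH.isCompact
  haveI : TotallyDisconnectedSpace H := Subtype.totallyDisconnectedSpace
  haveI : SMulCommClass H ℤ Zb := ⟨fun g n x => smul_comm (g : GQ) n x⟩
  let A0 := FixedPoints.subalgebra ℤ Zb H
  haveI : SMulCommClass H A0 Zb :=
    ⟨fun g a x => by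
      show g • ((a : Zb) * x) = (a : Zb) * g • x
      rw [smul_mul', a.2 g]⟩
  haveI : Algebra.IsInvariant A0 Zb H := ⟨fun b hb => ⟨⟨b, hb⟩, rfl⟩⟩
  let P : Ideal A0 := Q.under A0
  haveI : Q.LiesOver P := ⟨rfl⟩
  let eσ : Zb ≃+* Zb := MulSemiringAction.toRingEquiv GQ Zb σ
  have hmap : Q = Q.map (eσ : Zb →+* Zb) := by
    conv_lhs => rw [← hσQ]
    rfl
  let f : (Zb ⧸ Q) ≃+* (Zb ⧸ Q) := Ideal.quotientEquiv Q Q eσ hmap
  have hf : ∀ x : Zb, f (Ideal.Quotient.mk Q x) = Ideal.Quotient.mk Q (σ • x) := fun x => rfl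
  let e : (Zb ⧸ Q) ≃ₐ[A0 ⧸ P] (Zb ⧸ Q) :=
    AlgEquiv.ofRingEquiv (f := f) (by
      intro x
      obtain ⟨a, rfl⟩ := Ideal.Quotient.mk_surjective x
      have h1 : algebraMap (A0 ⧸ P) (Zb ⧸ Q) (Ideal.Quotient.mk P a) =
          Ideal.Quotient.mk Q (a : Zb) :=
        Ideal.Quotient.algebraMap_mk_of_liesOver Q P a
      rw [h1, hf, Ideal.Quotient.eq]
      exact hσ a.1 (fun h hh => a.2 ⟨h, hh⟩))
  obtain ⟨g, hg⟩ := Ideal.Quotient.stabilizerHom_surjective_of_profinite (G := H) P Q e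
  refine ⟨g.1.1, g.1.2, g.2, fun x => ?_⟩
  have h2 := congrArg (fun t => t (Ideal.Quotient.mk Q x)) hg
  simp only [Ideal.Quotient.stabilizerHom_apply] at h2
  rw [← Ideal.Quotient.eq]
  exact h2

end Fermat.Agent.S14.H894
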