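import Fermat.Agent.S14.Red734.Adapter
import Fermat.Agent.S14.H714.LocalI
import Fermat.Agent.S14.H894.LocalD

/-!
# S14 / H894: the Galois reduction `Spec.ReductionStatement`, unconditionally

Assembles `Red734.reductionStatement_of_local` from LOCAL-I (`H714.local_I`) and LOCAL-D
(`H894.localD`).
-/

set_option autoImplicit false

namespace Fermat.Agent.S14.H894

/-- **(B1)** The Galois reduction: a non-split admissible extension produces a Kummer datum
which is not a `p`-th power. -/
theorem reductionStatement : Spec.ReductionStatement :=
  Red734.reductionStatement_of_local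
    (fun _ _ _ _ hζ A b hb hbp hI => H714.local_I hζ A b hb hbp hI)
    (fun p hp h3 ζ hζ A hA b hbK hb1 hfix =>
      localD A p hp.out hA ζ hζ h3 b hbK hb1 hfix)

end Fermat.Agent.S14.H894
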