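import Mathlib

/-!
# S14 / H894 : valuation of a sum with pairwise distinct valuations; power expansions
-/

set_option autoImplicit false

namespace Fermat.Agent.S14.H894

open Polynomial

/-- If the nonzero terms of a finite sum have pairwise distinct valuations, the valuation of the
sum is the maximum of the valuations of the terms. -/
theorem valuation_sum_eq_sup {F Γ ι : Type*} [Field F] [LinearOrderedCommGroupWithZero Γ]
    (v : Valuation F Γ) (s : Finset ι) (f : ι → F)
    (h : ∀ i ∈ s, ∀ j ∈ s, i ≠ j → f i ≠ 0 → v (f i) ≠ v (f j)) :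
    v (∑ i ∈ s, f i) = s.sup (fun i => v (f i)) := by
  classical
  induction s using Finset.induction_on with
  | empty => simp [bot_eq_zero]
  | insert a s ha ih =>
    rw [Finset.sum_insert ha, Finset.sup_insert]
    have ih' := ih (fun i hi j hj => h i (Finset.mem_insert_of_mem hi) j
      (Finset.mem_insert_of_mem hj))
    by_cases hfa : f a = 0
    · rw [hfa, zero_add, map_zero, ih']
      exact (sup_of_le_right zero_le).symm
    · have hne : v (f a) ≠ v (∑ i ∈ s, f i) := by
        rw [ih']
        intro heq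
        have hpos : (0 : Γ) < v (f a) := by
          rw [Valuation.pos_iff]; exact hfa
        rcases s.eq_empty_or_nonempty with hs | hs
        · subst hs
          rw [Finset.sup_empty, bot_eq_zero] at heq
          exact hpos.ne' heq
        · obtain ⟨j, hj, hjs⟩ := Finset.exists_mem_eq_sup s hs (fun i => v (f i))
          rw [hjs] at heq
          refine h a (Finset.mem_insert_self a s) j (Finset.mem_insert_of_mem hj) ?_ hfa heq
          rintro rfl
          exact ha hj
      rw [Valuation.map_add_of_distinct_val v hne, ih']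

theorem valuation_sum_le_one_iff {F Γ ι : Type*} [Field F] [LinearOrderedCommGroupWithZero Γ]
    (v : Valuation F Γ) (s : Finset ι) (f : ι → F)
    (h : ∀ i ∈ s, ∀ j ∈ s, i ≠ j → f i ≠ 0 → v (f i) ≠ v (f j)) :
    v (∑ i ∈ s, f i) ≤ 1 ↔ ∀ i ∈ s, v (f i) ≤ 1 := by
  rw [valuation_sum_eq_sup v s f h, Finset.sup_le_iff]

theorem valuation_sum_lt_one_iff {F Γ ι : Type*} [Field F] [LinearOrderedCommGroupWithZero Γ]
    (v : Valuation F Γ) (s : Finset ι) (f : ι → F)
    (h : ∀ i ∈ s, ∀ j ∈ s, i ≠ j → f i ≠ 0 → v (f i) ≠ v (f j)) :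
    v (∑ i ∈ s, f i) < 1 ↔ ∀ i ∈ s, v (f i) < 1 := by
  rw [valuation_sum_eq_sup v s f h, Finset.sup_lt_iff (by rw [bot_eq_zero]; exact zero_lt_one)]

end Fermat.Agent.S14.H894
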