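import Fermat.Agent.S14.H894.Profinite
import Fermat.Agent.S14.H894.InertiaMem
import Fermat.Agent.S14.H894.ValSum

/-!
# S14 / H894 : inertia surjects onto the embeddings of a totally ramified simple extension

`exists_inertia_eq_on_adjoin` : let `A` be a valuation subring of `ℚ̄` over a prime, `K` an
intermediate field, `γ` a root of a monic `f ∈ K[X]` of degree `n` such that the valuations
`v(γ)^k`, `0 < k < n`, are not valuations of elements of `K` and all `K`-conjugates of `γ` have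
the valuation of `γ`.  Then for every `τ ∈ Gal(ℚ̄/K)` there is `σ` in the inertia group of `A`,
fixing `K` pointwise, with `σ γ = τ γ`.
-/

set_option autoImplicit false
set_option linter.style.haveILetI false

open scoped Pointwise

namespace Fermat.Agent.S14.H894

open Polynomial Fermat.Agent.S54

local notation "Qb" => AlgebraicClosure ℚ
local notation "GQ" => (AlgebraicClosure ℚ ≃ₐ[ℚ] AlgebraicClosure ℚ)
local notation "Zb" => integralClosure ℤ (AlgebraicClosure ℚ)

/-- The field `K(γ)` as an intermediate field of `ℚ̄/ℚ`. -/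
noncomputable def adjoinField (K : IntermediateField ℚ Qb) (γ : Qb) : IntermediateField ℚ Qb :=
  IntermediateField.adjoin ℚ ((K : Set Qb) ∪ {γ})

theorem mem_fixingSubgroup_adjoinField_iff (K : IntermediateField ℚ Qb) (γ : Qb) (σ : GQ) :
    σ ∈ (adjoinField K γ).fixingSubgroup ↔ (∀ x ∈ K, σ x = x) ∧ σ γ = γ := by
  rw [IntermediateField.mem_fixingSubgroup_iff]
  constructor
  · intro h
    refine ⟨fun x hx => h x ?_, h γ ?_⟩
    · exact IntermediateField.subset_adjoin ℚ _ (Set.mem_union_left _ hx)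
    · exact IntermediateField.subset_adjoin ℚ _ (Set.mem_union_right _ rfl)
  · rintro ⟨hK, hγ⟩ x hx
    induction hx using IntermediateField.adjoin_induction with
    | mem x hx =>
      rcases hx with hx | hx
      · exact hK x hx
      · rw [Set.mem_singleton_iff] at hx; rw [hx]; exact hγ
    | algebraMap x => exact σ.commutes x
    | add x y _ _ hx hy => rw [map_add, hx, hy]
    | inv x _ hx => rw [map_inv₀, hx]
    | mul x y _ _ hx hy => rw [map_mul, hx, hy]

theorem exists_coeffs_of_mem_adjoinField (K : IntermediateField ℚ Qb) (γ : Qb) (f : K[X])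
    (hf : f.Monic) (hγ : aeval γ f = 0) (y : Qb) (hy : y ∈ adjoinField K γ) :
    ∃ c : ℕ → Qb, (∀ i, c i ∈ K) ∧ y = ∑ i ∈ Finset.range f.natDegree, c i * γ ^ i := by
  have h1 : adjoinField K γ = (IntermediateField.adjoin K {γ}).restrictScalars ℚ :=
    (IntermediateField.restrictScalars_adjoin ℚ K ({γ} : Set Qb)).symm
  rw [h1] at hy
  have hy' : y ∈ IntermediateField.adjoin K {γ} := hy
  have halg : IsAlgebraic K γ := ⟨f, hf.ne_zero, hγ⟩
  have hy2 : y ∈ (IntermediateField.adjoin K {γ}).toSubalgebra := hy'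
  rw [IntermediateField.adjoin_simple_toSubalgebra_of_isAlgebraic halg,
    Algebra.adjoin_singleton_eq_range_aeval] at hy2
  obtain ⟨q, rfl⟩ := hy2
  have hf1 : f ≠ 1 := by
    rintro rfl
    simp at hγ
  have hdeg : (q %ₘ f).natDegree < f.natDegree := natDegree_modByMonic_lt q hf hf1
  have hq : aeval γ q = aeval γ (q %ₘ f) := by
    conv_lhs => rw [← modByMonic_add_div q f]
    rw [map_add, map_mul, hγ, zero_mul, add_zero]
  refine ⟨fun i => ((q %ₘ f).coeff i : Qb), fun i => SetLike.coe_mem _, ?_⟩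
  show aeval γ q = _
  rw [hq, aeval_eq_sum_range' hdeg]
  refine Finset.sum_congr rfl fun i _ => ?_
  rw [Algebra.smul_def]
  rfl

section main

variable (A : ValuationSubring Qb) (K : IntermediateField ℚ Qb) (γ : Qb) (n : ℕ)

/-- The terms of a `K`-linear combination of powers of a conjugate of `γ` have pairwise
distinct valuations. -/
theorem distinct_terms
    (hindep : ∀ k : ℕ, 0 < k → k < n → ∀ c ∈ K, A.valuation γ ^ k ≠ A.valuation c)
    (c : ℕ → Qb) (hc : ∀ i, c i ∈ K) (γ' : Qb) (hγ' : A.valuation γ' = A.valuation γ) :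
    ∀ i ∈ Finset.range n, ∀ j ∈ Finset.range n, i ≠ j → c i * γ' ^ i ≠ 0 →
      A.valuation (c i * γ' ^ i) ≠ A.valuation (c j * γ' ^ j) := by
  intro i hi j hj hij hne heq
  rw [Finset.mem_range] at hi hj
  rw [map_mul, map_mul, map_pow, map_pow, hγ'] at heq
  have hn2 : 1 < n := by omega
  have hv0 : A.valuation γ ≠ 0 := by
    have := hindep 1 one_pos hn2 0 K.zero_mem
    simpa using this
  have hci : c i ≠ 0 := left_ne_zero_of_mul hne
  have hvci : A.valuation (c i) ≠ 0 := (Valuation.ne_zero_iff _).mpr hci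
  have hcj : c j ≠ 0 := by
    rintro h0
    rw [h0, map_zero, zero_mul] at heq
    exact mul_ne_zero hvci (pow_ne_zero _ hv0) heq
  have hvcj : A.valuation (c j) ≠ 0 := (Valuation.ne_zero_iff _).mpr hcj
  rcases lt_or_gt_of_ne hij with hlt | hlt
  · refine hindep (j - i) (by omega) (by omega) (c i / c j) (K.div_mem (hc i) (hc j)) ?_
    rw [map_div₀, eq_div_iff hvcj]
    have hpow : A.valuation γ ^ j = A.valuation γ ^ (j - i) * A.valuation γ ^ i := by
      rw [← pow_add]; congr 1; omega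
    rw [hpow, ← mul_assoc] at heq
    have h2 := mul_right_cancel₀ (pow_ne_zero i hv0) heq
    rw [h2, mul_comm]
  · refine hindep (i - j) (by omega) (by omega) (c j / c i) (K.div_mem (hc j) (hc i)) ?_
    rw [map_div₀, eq_div_iff hvci]
    have hpow : A.valuation γ ^ i = A.valuation γ ^ (i - j) * A.valuation γ ^ j := by
      rw [← pow_add]; congr 1; omega
    rw [hpow, ← mul_assoc] at heq
    have h2 := mul_right_cancel₀ (pow_ne_zero j hv0) heq
    rw [← h2, mul_comm]

end main

/-- **Inertia surjects onto the embeddings of a totally ramified simple extension.** -/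
theorem exists_inertia_eq_on_adjoin (A : ValuationSubring Qb) (ℓ : ℕ) (hℓ : ℓ.Prime)
    (hA : A.LiesOverPrime ℓ) (K : IntermediateField ℚ Qb) (γ : Qb) (f : K[X]) (hf : f.Monic)
    (hγ : aeval γ f = 0)
    (hindep : ∀ k : ℕ, 0 < k → k < f.natDegree → ∀ c ∈ K, A.valuation γ ^ k ≠ A.valuation c)
    (hconj : ∀ τ : GQ, (∀ x ∈ K, τ x = x) → A.valuation (τ γ) = A.valuation γ)
    (τ : GQ) (hτ : ∀ x ∈ K, τ x = x) :
    ∃ σ ∈ A.inertiaSubgroupIn ℚ, (∀ x ∈ K, σ x = x) ∧ σ γ = τ γ := by
  haveI := isGalois_algebraicClosure_rat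
  set n := f.natDegree with hn
  set L := adjoinField K γ with hL
  set H : Subgroup GQ := L.fixingSubgroup with hH
  have hHclosed : IsClosed (H : Set GQ) := InfiniteGalois.fixingSubgroup_isClosed L
  have hHmem : ∀ σ : GQ, σ ∈ H ↔ (∀ x ∈ K, σ x = x) ∧ σ γ = γ :=
    mem_fixingSubgroup_adjoinField_iff K γ
  haveI hQprime := primeBelow_isPrime A
  set Q := primeBelow A with hQ
  -- invariants lie in `L`
  have hinv : ∀ y : Zb, (∀ h ∈ H, h • y = y) → (y : Qb) ∈ L := by
    intro y hy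
    rw [← InfiniteGalois.fixedField_fixingSubgroup L, IntermediateField.mem_fixedField_iff]
    intro g hg
    exact congrArg Subtype.val (hy g hg)
  -- valuation formula
  have hval : ∀ (σ : GQ), (∀ x ∈ K, σ x = x) → ∀ y ∈ L,
      A.valuation (σ y) = A.valuation y := by
    intro σ hσ y hy
    obtain ⟨c, hc, rfl⟩ := exists_coeffs_of_mem_adjoinField K γ f hf hγ y hy
    rw [map_sum]
    have h1 : ∀ i ∈ Finset.range n, σ (c i * γ ^ i) = c i * (σ γ) ^ i := by
      intro i _
      rw [map_mul, map_pow, hσ _ (hc i)]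
    rw [Finset.sum_congr rfl h1]
    rw [valuation_sum_eq_sup _ _ _ (distinct_terms A K γ n hindep c hc (σ γ) (hconj σ hσ)),
      valuation_sum_eq_sup _ _ _ (distinct_terms A K γ n hindep c hc γ rfl)]
    refine Finset.sup_congr rfl fun i _ => ?_
    rw [map_mul, map_mul, map_pow, map_pow, hconj σ hσ]
  -- residue formula
  have hres : ∀ (σ : GQ), (∀ x ∈ K, σ x = x) → ∀ y ∈ L, y ∈ A →
      A.valuation (σ y - y) < 1 := by
    intro σ hσ y hy hyA
    obtain ⟨c, hc, rfl⟩ := exists_coeffs_of_mem_adjoinField K γ f hf hγ y hy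
    have hdist := distinct_terms A K γ n hindep c hc γ rfl
    have hle : ∀ i ∈ Finset.range n, A.valuation (c i * γ ^ i) ≤ 1 := by
      rw [← valuation_sum_le_one_iff _ _ _ hdist]
      exact (A.valuation_le_one_iff _).mpr hyA
    have hlt : ∀ i ∈ Finset.range n, 0 < i → A.valuation (c i * γ ^ i) < 1 := by
      intro i hi hi0
      refine lt_of_le_of_ne (hle i hi) ?_
      intro h1
      by_cases hci : c i = 0
      · rw [hci, zero_mul, map_zero] at h1; exact zero_ne_one h1
      · have hvci : A.valuation (c i) ≠ 0 := (Valuation.ne_zero_iff _).mpr hci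
        refine hindep i hi0 (Finset.mem_range.mp hi) (c i)⁻¹ (K.inv_mem (hc i)) ?_
        rw [map_inv₀]
        refine eq_inv_of_mul_eq_one_left ?_
        rw [mul_comm, ← map_pow, ← map_mul]
        exact h1
    rw [map_sum, ← Finset.sum_sub_distrib]
    refine Valuation.map_sum_lt _ one_ne_zero fun i hi => ?_
    by_cases hi0 : i = 0
    · subst hi0
      simp [hσ _ (hc 0)]
    · have hi0' : 0 < i := Nat.pos_of_ne_zero hi0
      have h2 : σ (c i * γ ^ i) = c i * (σ γ) ^ i := by rw [map_mul, map_pow, hσ _ (hc i)]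
      have h3 : A.valuation (σ (c i * γ ^ i)) < 1 := by
        rw [h2, map_mul, map_pow, hconj σ hσ, ← map_pow, ← map_mul]
        exact hlt i hi hi0'
      exact lt_of_le_of_lt (Valuation.map_sub _ _ _) (max_lt h3 (hlt i hi hi0'))
  have hmemQ : ∀ y : Zb, y ∈ Q ↔ A.valuation (y : Qb) < 1 := by
    intro y
    rw [hQ, mem_primeBelow, ValuationSubring.mem_nonunits_iff]
  -- Step 3: move `τ⁻¹ • Q` back to `Q` by an element of `H`
  have hPQ : ∀ y : Zb, (∀ h ∈ H, h • y = y) → (y ∈ Q ↔ y ∈ τ⁻¹ • Q) := by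
    intro y hy
    rw [Ideal.mem_inv_pointwise_smul_iff, hmemQ, hmemQ]
    have : ((τ • y : Zb) : Qb) = τ (y : Qb) := rfl
    rw [this, hval τ hτ _ (hinv y hy)]
  obtain ⟨g, hgH, hg⟩ := exists_smul_eq_of_closed H hHclosed Q (τ⁻¹ • Q) hPQ
  have hgK := (hHmem g).mp hgH
  set σ₁ : GQ := τ * g with hσ₁
  have hσ₁Q : σ₁ • Q = Q := by
    rw [hσ₁, mul_smul, ← hg, smul_inv_smul]
  have hσ₁K : ∀ x ∈ K, σ₁ x = x := by
    intro x hx
    rw [hσ₁, AlgEquiv.mul_apply, hgK.1 x hx, hτ x hx]
  have hσ₁γ : σ₁ γ = τ γ := by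
    rw [hσ₁, AlgEquiv.mul_apply, hgK.2]
  -- Step 4: correct the residue action by an element of `H`
  have hσ₁res : ∀ y : Zb, (∀ h ∈ H, h • y = y) → σ₁ • y - y ∈ Q := by
    intro y hy
    rw [hmemQ]
    exact hres σ₁ hσ₁K _ (hinv y hy) (isIntegral_mem_valuationSubring A y.2)
  obtain ⟨g', hg'H, hg'Q, hg'⟩ := exists_mem_stabilizer_of_closed H hHclosed Q σ₁ hσ₁Q hσ₁res
  have hg'K := (hHmem g').mp hg'H
  have hg'invK : ∀ x ∈ K, g'⁻¹ x = x := by
    intro x hx
    have := hg'K.1 x hx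
    calc g'⁻¹ x = g'⁻¹ (g' x) := by rw [this]
      _ = x := by rw [← AlgEquiv.mul_apply, inv_mul_cancel, AlgEquiv.one_apply]
  have hg'invγ : g'⁻¹ γ = γ := by
    calc g'⁻¹ γ = g'⁻¹ (g' γ) := by rw [hg'K.2]
      _ = γ := by rw [← AlgEquiv.mul_apply, inv_mul_cancel, AlgEquiv.one_apply]
  refine ⟨σ₁ * g'⁻¹, ?_, ?_, ?_⟩
  · refine mem_inertiaSubgroupIn_of_forall A ℓ hℓ hA _ ?_ ?_
    · rw [mul_smul, inv_smul_eq_iff.mpr hg'Q.symm, hσ₁Q]
    · intro x
      have h1 := hg' (g'⁻¹ • x)
      rw [smul_inv_smul] at h1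
      rw [mul_smul]
      have h2 : σ₁ • g'⁻¹ • x - x = -(x - σ₁ • g'⁻¹ • x) := by ring
      rw [h2]
      exact Q.neg_mem h1
  · intro x hx
    rw [AlgEquiv.mul_apply, hg'invK x hx, hσ₁K x hx]
  · rw [AlgEquiv.mul_apply, hg'invγ, hσ₁γ]

end Fermat.Agent.S14.H894
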